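import Fermat.Agent.RowS58.Descend
import Fermat.Agent.SquareOld.AllLevels
import Fermat.Prelude.Def_WeierstrassCurve_Mlc1RowStatement

/-!
# Exact conductor level

A semistable curve which is modular at a cube-free level is modular at the product of its bad
primes.
-/

open WeierstrassCurve

namespace Fermat.Agent.General

variable {W : WeierstrassCurve ℤ} {p : ℕ} [Fact p.Prime]

/-- Modular at a cube-free level with `p² ∤ N`: modular of exact conductor level. -/
theorem exactConductor_of_cubeFree (hΔ : W.Δ ≠ 0) (hss : W.IsSemistableModel)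
    (hirr : W.ModRepIsIrreducible p) {N : ℕ} (hp2N : ¬ p ^ 2 ∣ N)
    (hN3 : ∀ q : ℕ, q.Prime → ¬ q ^ 3 ∣ N) (hN : W.IsModularModelOfLevel N) :
    Mlc1IsModularModelOfExactConductorLevel W :=
  ⟨W.conductorLevel, W.conductorLevel_pos, W.squarefree_conductorLevel,
    fun _ hq => W.prime_dvd_conductorLevel_iff hΔ hq,
    RowS58.isModularModelOfLevel_conductorLevel
      (fun N w _ _ => SquareOld.fixedKilledByNorms_of_noElliptic N w)
      hΔ hss hirr N hp2N hN hN3⟩

/-- Modular at a squarefree level: modular of exact conductor level. -/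
theorem exactConductor_of_squarefree (hΔ : W.Δ ≠ 0) (hss : W.IsSemistableModel)
    (hirr : W.ModRepIsIrreducible p) {N : ℕ} (hsq : Squarefree N)
    (hN : W.IsModularModelOfLevel N) : Mlc1IsModularModelOfExactConductorLevel W := by
  refine exactConductor_of_cubeFree hΔ hss hirr (fun h => ?_) (fun q hq h => ?_) hN
  · exact Nat.squarefree_iff_prime_squarefree.1 hsq p Fact.out (by rwa [pow_two] at h)
  · exact Nat.squarefree_iff_prime_squarefree.1 hsq q hq
      (dvd_trans (Dvd.intro q (by ring)) h)

end Fermat.Agent.General
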