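import Fermat.Agent.General.Cases
import Fermat.Agent.General.ExactConductor
import Fermat.Agent.Engine.Top.Convert

/-!
# Lifting at an odd prime from the three cases
-/

open WeierstrassCurve

namespace Fermat.Agent.General

/-- Lifting at `p` from auxiliary primes, lowering and the three cases. -/
theorem lifting_of (p : ℕ) [Fact p.Prime] (hA : AuxExists p) (hR : RamifiedLevel p)
    (hM : LiftingMult p) (hO : LiftingOrd p) (hS : LiftingSS p) : Lifting p := by
  classical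
  intro W hΔ hW hirr hlev
  obtain ⟨M, hM0, hMsq, hMp, hMres⟩ := hlev
  obtain ⟨U, hU, hUM⟩ := hA W M.primeFactors hΔ hW hirr
  have hnd : ∀ R ∈ U, ¬ R ∣ M := fun R hR' h =>
    hUM R hR' (Nat.mem_primeFactors.2 ⟨hU.prime R hR', h, hM0.ne'⟩)
  have hcop : M.Coprime (∏ R ∈ U, R) := Nat.Coprime.prod_right fun R hR' =>
    ((hU.prime R hR').coprime_iff_not_dvd.2 (hnd R hR')).symm
  have hUsq : Squarefree (∏ R ∈ U, R) := Finset.squarefree_prod_of_pairwise_isCoprime
    (fun a ha b hb hab => (Nat.coprime_iff_isRelPrime.1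
      ((Nat.coprime_primes (hU.prime a ha) (hU.prime b hb)).2 hab)))
    fun R hR' => (hU.prime R hR').squarefree
  have hsq : Squarefree (M * ∏ R ∈ U, R) := Nat.squarefree_mul hcop |>.2 ⟨hMsq, hUsq⟩
  have : NeZero (M * ∏ R ∈ U, R) := ⟨hsq.ne_zero⟩
  have hlev' : GoodResidualLevel W p (M * ∏ R ∈ U, R) := by
    refine ⟨Nat.pos_of_ne_zero hsq.ne_zero, hsq, fun hg h => ?_,
      Engine.Top.isResiduallyModularOfLevel_of_dvd hΔ (dvd_mul_right _ _) hMres⟩
    rcases (Nat.Prime.dvd_mul Fact.out).1 h with h | h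
    · exact hMp hg h
    · obtain ⟨R, hR', h⟩ := (Prime.dvd_finsetProd_iff (Fact.out : p.Prime).prime _).1 h
      obtain rfl := (Nat.prime_dvd_prime_iff_eq Fact.out (hU.prime R hR')).1 h
      exact (Fact.out : p.Prime).not_dvd_one
        ((Nat.dvd_add_right dvd_rfl).1 (hU.neg_one p hR'))
  obtain ⟨M₀, -, hbase⟩ := hR W U _ hΔ hW hirr hU hlev'
    fun R hR' => (Finset.dvd_prod_of_mem _ hR').mul_left M
  obtain ⟨N, hN, hmod⟩ : ∃ N : ℕ, Squarefree N ∧ W.IsModularModelOfLevel N := by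
    by_cases hg : W.IsGoodPrimeFor p
    · by_cases ha : (p : ℤ) ∣ W.apOfModel p
      · exact hS W U M₀ hΔ hW hirr ⟨hg, ha⟩ hbase
      · exact hO W U M₀ hΔ hW hirr ⟨hg, ha⟩ hbase
    · exact hM hR W U M₀ hΔ hW hirr hg hbase
  obtain ⟨N', hN', hsq', hsupp, hmod'⟩ := exactConductor_of_squarefree hΔ hW hirr hN hmod
  exact ⟨N', hN', hsq', fun q hq h => (hsupp q hq).1 h, hmod'⟩

end Fermat.Agent.General
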