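import Fermat.Agent.Engine.FlatAtP

/-!
# The flat condition at a supersingular place over an odd prime

For `p = 3` the residual determinant is asked to have square one, as a cyclotomic one has.
-/

noncomputable section

namespace Fermat.Agent.General

open Fermat.Agent.FlatJ0 Fermat.Agent.DefRing Fermat.Agent.Engine Fermat.Agent.EllLocal

local notation "Qbar" => AlgebraicClosure ℚ

variable {k : Type} [Field k] {p : ℕ} [CharP k p] {A : ValuationSubring Qbar}

/-- The supersingular shape, in some basis, with determinant of square one when `p = 3`. -/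
structure IsSSFlatShape (A : ValuationSubring Qbar) (p : ℕ) (ρ : MRep k) : Prop where
  shape : ∃ P : (Matrix (Fin 2) (Fin 2) k)ˣ, IsSSShape A p (conjRep P ρ)
  det_sq : p = 3 → ∀ σ, (ρ σ).det ^ 2 = 1

variable {N : Subgroup GQ} {ρ : MRep k}

/-- Cocycles vanishing on a kernel with the bound. -/
theorem finrank_adCocycles_le_ss (h : IsOver A p) (hp : p ≠ 2) (hN : IsBoundKernel A p N ρ)
    (hρ : IsSSFlatShape A p ρ) :
    FiniteDimensional k (adCocycles A N ρ) ∧ Module.finrank k (adCocycles A N ρ) ≤ 4 := by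
  have hp3 : 3 ≤ p := by have := h.prime.two_le; omega
  obtain ⟨P, hP⟩ := hρ.shape
  obtain ⟨g, hg⟩ := hP.exists_gen
  have hN' := hN.conj P
  have hdet : p = 3 → (conjRep P ρ g).det ^ 2 = 1 := fun e => by
    rw [conjRep_apply, Matrix.det_mul, Matrix.det_mul, mul_right_comm, ← Matrix.det_mul,
      Units.mul_inv, Matrix.det_one, one_mul]
    exact hρ.det_sq e g
  obtain ⟨hfin, hle⟩ := finrank_adCocycles_le_four hN'
    (hg.finrank_adClasses_le_of_det h hp3 hN' hdet)
  let f : adCocycles A N ρ →ₗ[k] adCocycles A N (conjRep P ρ) :=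
    ((conjFun A P).comp (adCocycles A N ρ).subtype).codRestrict _ fun c =>
      map_conjFun_le P ⟨c, c.2, rfl⟩
  have hf : Function.Injective f := fun c c' e =>
    Subtype.ext (conjFun_injective P (congrArg Subtype.val e))
  exact ⟨Module.Finite.of_injective f hf,
    (LinearMap.finrank_le_finrank_of_injective hf).trans hle⟩

/-- **The flat condition has dimension at most four**, supersingular shape. -/
theorem finrank_flatCond_le_ss (h : IsOver A p) (hp : p ≠ 2) (hρ : IsSSFlatShape A p ρ) :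
    FiniteDimensional k (flatCond A p ρ) ∧ Module.finrank k (flatCond A p ρ) ≤ 4 := by
  classical
  rcases isEmpty_or_nonempty {N : Subgroup GQ // IsBoundKernel A p N ρ} with he | ⟨⟨N₀, hN₀⟩⟩
  · have hbot : flatCond A p ρ = ⊥ := iSup_of_empty _
    rw [hbot]
    exact ⟨inferInstance, by simp⟩
  have hrank : Module.rank k (flatCond A p ρ) ≤ (4 : ℕ) := by
    refine rank_le fun s hs => ?_
    obtain ⟨N, hN, hsub⟩ : ∃ N, IsBoundKernel A p N ρ ∧ ∀ c ∈ s,
        (c : ↥(A.decompositionSubgroup ℚ) → Matrix (Fin 2) (Fin 2) k) ∈ adCocycles A N ρ := by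
      clear hs
      induction s using Finset.induction with
      | empty => exact ⟨N₀, hN₀, by simp⟩
      | insert a t _ ih =>
        obtain ⟨N, hN, hNt⟩ := ih
        obtain ⟨N', hN', hN'a⟩ := (mem_flatCond_iff hN₀).1 a.2
        refine ⟨N ⊓ N', hN.inf hN', fun c hc => ?_⟩
        rcases Finset.mem_insert.1 hc with rfl | hc
        · exact adCocycles_anti inf_le_right hN'a
        · exact adCocycles_anti inf_le_left (hNt c hc)
    obtain ⟨hfin, hle⟩ := finrank_adCocycles_le_ss h hp hN hρ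
    have hli : LinearIndependent k fun c : s =>
        (⟨c.1.1, hsub c.1 c.2⟩ : adCocycles A N ρ) := by
      refine LinearIndependent.of_comp (adCocycles A N ρ).subtype ?_
      exact hs.map' (flatCond A p ρ).subtype (Submodule.ker_subtype _)
    have h4 := hli.fintype_card_le_finrank.trans hle
    rwa [Fintype.card_coe] at h4
  have : FiniteDimensional k (flatCond A p ρ) :=
    Module.rank_lt_aleph0_iff.1 (hrank.trans_lt (Cardinal.natCast_lt_aleph0))
  exact ⟨inferInstance, Module.finrank_le_of_rank_le hrank⟩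

/-- The flat condition at a place over an odd `p`, from one kernel and the supersingular shape. -/
theorem exists_flat_condAtP_ss (p : ℕ) [Fact p.Prime] (hp : p ≠ 2) [CharP k p] (ρ : MRep k)
    (A : ValuationSubring Qbar) (hA : A.LiesOverPrime p) (hρ : IsSSFlatShape A p ρ)
    {N₀ : Subgroup GQ} (hN₀ : IsBoundKernel A p N₀ ρ) :
    ∃ L : CondAtP ρ p, L.place = A ∧ ∀ c : GQ → Matrix (Fin 2) (Fin 2) k, IsAdCocycle ρ c →
      ∀ N : Subgroup GQ, IsBoundKernel A p N ρ → (∀ σ ∈ N, c σ = 0) →
        (fun g : L.place.decompositionSubgroup ℚ => c g) ∈ L.cond := by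
  refine ⟨⟨A, hA, flatCond A p ρ, fun c hc => ?_, fun X hX => ?_, ?_⟩, rfl,
    fun c hc N hN hcN => ?_⟩
  · obtain ⟨N, -, h⟩ := (mem_flatCond_iff hN₀).1 hc
    exact ⟨h.1, h.2.1⟩
  · exact mem_flatCond hN₀ (adCoboundaries_le hN₀ ⟨X, hX, fun g => rfl⟩)
  · exact finrank_flatCond_le_ss ⟨Fact.out, hA⟩ hp hρ
  · obtain ⟨hmul, htr, F, hF, hF0⟩ := hc
    refine mem_flatCond hN ⟨fun σ τ => hmul σ τ, fun σ => htr σ, fun σ hσ => hcN σ hσ, F, hF,
      fun σ hσ => hF0 σ fun a ha => ?_⟩
    exact (IntermediateField.mem_fixingSubgroup_iff F (σ : GQ)).1 hσ a ha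

/-- Determinants of torsion matrices lie in the prime field. -/
theorem det_pow_sub_one {M : Type*} [AddCommGroup M] [DistribMulAction GQ M] [Fact p.Prime]
    (hρ : IsTorsionMatrix (M := M) p ρ) (σ : GQ) : (ρ σ).det ^ (p - 1) = 1 := by
  obtain ⟨P, -, hn⟩ := hρ
  obtain ⟨n, -, e⟩ := hn σ
  set d : ZMod p := (n.map (Nat.cast : ℕ → ZMod p)).det with hd
  let f : ZMod p →+* k := ZMod.castHom dvd_rfl k
  have he : (ρ σ).det = f d := by
    rw [hd, RingHom.map_det, e]
    congr 1
    ext i j
    simp [f]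
  have hd0 : d ≠ 0 := fun h0 => by
    rw [h0, map_zero] at he
    exact not_isUnit_zero (he ▸ (Matrix.isUnit_iff_isUnit_det _).mp
      (IsUnit.map ρ (Group.isUnit σ)))
  rw [he, ← map_pow, ZMod.pow_card_sub_one_eq_one hd0, map_one]

/-- The flat condition for the torsion of a curve with good supersingular reduction. -/
theorem exists_flat_condAtP_supersingular (p : ℕ) [Fact p.Prime] (hp : p ≠ 2) [CharP k p]
    (ρ : MRep k) (A : ValuationSubring Qbar) (hA : A.LiesOverPrime p) (W : WeierstrassCurve ℤ)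
    [(W.map (Int.castRingHom ℚ)).IsElliptic]
    (hgood : W.IsGoodPrimeFor p) (hss : IsGoodSupersingular W p)
    (hρ : IsTorsionMatrix (M := EllLocal.PtQ (W.map (Int.castRingHom ℚ))) p ρ) :
    IsSSFlatShape A p ρ ∧
    ∃ L : CondAtP ρ p, L.place = A ∧ ∀ c : GQ → Matrix (Fin 2) (Fin 2) k, IsAdCocycle ρ c →
      ∀ N : Subgroup GQ, IsBoundKernel A p N ρ → (∀ σ ∈ N, c σ = 0) →
        (fun g : L.place.decompositionSubgroup ℚ => c g) ∈ L.cond := by
  have hs : IsSSFlatShape A p ρ := by
    refine ⟨⟨1, ?_⟩, fun e σ => ?_⟩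
    · rw [show conjRep (1 : (Matrix (Fin 2) (Fin 2) k)ˣ) ρ = ρ from MonoidHom.ext fun x => by
        rw [conjRep_apply, inv_one, Units.val_one, one_mul, mul_one]]
      exact isSSShape_of_supersingular hA hp hss hρ
    · subst e
      exact det_pow_sub_one hρ σ
  exact ⟨hs, exists_flat_condAtP_ss p hp ρ A hA hs (isBoundKernel_torsionKer hA hp hgood hρ)⟩

end Fermat.Agent.General

end
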