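import Fermat.Agent.Engine.Goals
import Fermat.Prelude.Def_WeierstrassCurve_Mlc1RowStatement

/-!
# The statements of the general semistable engine

`Lifting p` is lifting from a squarefree level, prime to `p` if the curve is good at `p`;
`Residual3` and `SwitchFive` are the residual inputs.  `AllModular` gives S59 and S60.
-/

namespace Fermat.Agent.General

/-- A residual level as the switches produce it. -/
def GoodResidualLevel (W : WeierstrassCurve ℤ) (p M : ℕ) : Prop :=
  0 < M ∧ Squarefree M ∧ (W.IsGoodPrimeFor p → ¬ p ∣ M) ∧ W.IsResiduallyModularOfLevel p M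

/-- Modular of a squarefree level supported on the discriminant. -/
def GoodModular (W : WeierstrassCurve ℤ) : Prop :=
  ∃ N : ℕ, 0 < N ∧ Squarefree N ∧ (∀ q : ℕ, q.Prime → q ∣ N → (q : ℤ) ∣ W.Δ) ∧
    W.IsModularModelOfLevel N

/-- Lifting at `p`. -/
def Lifting (p : ℕ) : Prop :=
  ∀ W : WeierstrassCurve ℤ, W.Δ ≠ 0 → W.IsSemistableModel → W.ModRepIsIrreducible p →
    (∃ M, GoodResidualLevel W p M) → GoodModular W

/-- Lowering away from `p` at a good residual level, up to a set of harmless primes. -/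
def Lowering (p : ℕ) : Prop :=
  ∀ (W : WeierstrassCurve ℤ) (M q : ℕ), W.Δ ≠ 0 → W.IsSemistableModel → W.ModRepIsIrreducible p →
    q.Prime → q ≠ p → q ∣ M → Engine.Unramified W p q → GoodResidualLevel W p M →
    ∃ M', M' ∣ M ∧ ¬ q ∣ M' ∧ GoodResidualLevel W p M'

/-- Residual modularity at `3`. -/
def Residual3 : Prop :=
  ∀ W : WeierstrassCurve ℤ, W.Δ ≠ 0 → W.IsSemistableModel → W.ModRepIsIrreducible 3 →
    ∃ M, GoodResidualLevel W 3 M

/-- The switch at `5`, keeping good reduction at `5`. -/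
def SwitchFive : Prop :=
  ∀ W : WeierstrassCurve ℤ, W.Δ ≠ 0 → W.IsSemistableModel → W.ModRepIsIrreducible 5 →
    ∃ W' : WeierstrassCurve ℤ, W'.Δ ≠ 0 ∧ W'.IsSemistableModel ∧ W'.ModRepIsIrreducible 3 ∧
      (W.IsGoodPrimeFor 5 → W'.IsGoodPrimeFor 5) ∧
      ∀ ℓ : ℕ, ℓ.Prime → W.IsGoodPrimeFor ℓ → W'.IsGoodPrimeFor ℓ → ℓ ≠ 5 →
        (5 : ℤ) ∣ (W'.apOfModel ℓ - W.apOfModel ℓ)

/-- Every semistable model is modular at its exact level. -/
def AllModular : Prop :=
  ∀ W : WeierstrassCurve ℤ, W.Δ ≠ 0 → W.IsSemistableModel →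
    Mlc1IsModularModelOfExactConductorLevel W

end Fermat.Agent.General
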