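import Fermat.Agent.ThreeFive.Main
import Fermat.Agent.EllFrobenius.Rat
import Fermat.Agent.General.Goals

/-!
# The switch at five, keeping good reduction at five
-/

namespace Fermat.Agent.General

open Polynomial ThreeFive

/-- Semistable models of members of the family, good at `5` when `W` is. -/
theorem exists_models_five (W : WeierstrassCurve ℤ) (hΔ : W.Δ ≠ 0) (hW : W.IsSemistableModel) :
    ∃ v : ℕ, 0 < v ∧ ∀ k : ℕ, ∃ W' : WeierstrassCurve ℤ, W'.Δ ≠ 0 ∧ W'.IsSemistableModel ∧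
      (W.IsGoodPrimeFor 5 → W'.IsGoodPrimeFor 5) ∧
      (W'.c₄ : ℚ) = (1 + (v : ℚ) * k) ^ 20 *
        (F4 (W.c₄ : ℚ) (W.c₆ : ℚ)).eval ((v : ℚ) / (1 + (v : ℚ) * k)) ∧
      (W'.c₆ : ℚ) = (1 + (v : ℚ) * k) ^ 30 *
        (F6 (W.c₄ : ℚ) (W.c₆ : ℚ)).eval ((v : ℚ) / (1 + (v : ℚ) * k)) := by
  set c4 : ℚ := (W.c₄ : ℚ) with hc4
  set c6 : ℚ := (W.c₆ : ℚ) with hc6
  have hrel : c4 ^ 3 - c6 ^ 2 = 1728 * (W.Δ : ℚ) := by
    rw [hc4, hc6]; exact_mod_cast W.c_relation.symm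
  have hne : c4 ^ 3 ≠ c6 ^ 2 := by
    rw [← sub_ne_zero, hrel]; exact mul_ne_zero (by norm_num) (by exact_mod_cast hΔ)
  obtain ⟨d4, P4, hd4, hP4⟩ := exists_int_poly (F4 c4 c6)
  obtain ⟨d6, P6, hd6, hP6⟩ := exists_int_poly (F6 c4 c6)
  obtain ⟨dD, PD, hdD, hPD⟩ := exists_int_poly (FD c4 c6)
  obtain ⟨ra, rb, hbez⟩ := F4_FD_coprime hne
  obtain ⟨da, Pa, hda, hPa⟩ := exists_int_poly ra
  obtain ⟨db, Pb, hdb, hPb⟩ := exists_int_poly rb
  set N : ℤ := da * db * d4 * dD with hN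
  have hN0 : N ≠ 0 := by positivity
  have hbezZ : C (db * dD) * Pa * P4 + C (da * d4) * Pb * PD = C N := by
    apply Polynomial.map_injective (Int.castRingHom ℚ) Int.cast_injective
    simp only [Polynomial.map_add, Polynomial.map_mul, Polynomial.map_C, hPa, hPb, hP4, hPD, hN]
    simp only [eq_intCast (Int.castRingHom ℚ), Int.cast_mul, map_mul]
    linear_combination (C (db : ℚ) * C (dD : ℚ) * C (da : ℚ) * C (d4 : ℚ)) * hbez
  obtain ⟨L, hL0, hL⟩ : ∃ L : ℤ, L ≠ 0 ∧ ∀ q : ℤ, q ∣ P4.coeff 20 → q ∣ PD.coeff 12 → q ∣ L := by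
    rcases leading_not_both_zero hne with h | h
    · refine ⟨P4.coeff 20, ?_, fun q h _ => h⟩
      intro e
      have := congrArg (fun q => Polynomial.coeff q 20) hP4
      simp [coeff_map, e, hd4.ne', h] at this
    · refine ⟨PD.coeff 12, ?_, fun q _ h => h⟩
      intro e
      have := congrArg (fun q => Polynomial.coeff q 12) hPD
      simp [coeff_map, e, hdD.ne', h] at this
  set dd : ℤ := d4 * d6 * dD with hdd
  set M0 : ℤ := 5 * 41472 * |W.Δ| * |N| * |L| * dd with hM0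
  have hM0pos : 0 < M0 := by positivity
  have hdd0 : 0 < dd := by positivity
  refine ⟨(dd * M0).toNat, by have := mul_pos hdd0 hM0pos; omega, fun k => ?_⟩
  set v : ℤ := dd * M0 with hv
  have hvpos : 0 < v := mul_pos hdd0 hM0pos
  set u : ℤ := 1 + v * k with hu
  have hu0 : u ≠ 0 := by
    have : (0 : ℤ) ≤ v * k := mul_nonneg hvpos.le (Int.natCast_nonneg k)
    omega
  have hcast : ((v.toNat : ℕ) : ℚ) = (v : ℚ) := by
    rw [← Int.cast_natCast, Int.toNat_of_nonneg hvpos.le]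
  have huQ : (1 + ((v.toNat : ℕ) : ℚ) * k) = (u : ℚ) := by rw [hcast, hu]; push_cast; ring
  -- integrality and congruence
  have key : ∀ (p : ℚ[X]) (P : ℤ[X]) (d c : ℤ) (n : ℕ), 0 < d → d ∣ dd →
      P.map (Int.castRingHom ℚ) = C (d : ℚ) * p → p.natDegree ≤ n → p.eval 0 = (c : ℚ) →
      ∃ G : ℤ, hom P n u v = d * G ∧ (G : ℚ) = (u : ℚ) ^ n * p.eval ((v : ℚ) / u) ∧
        M0 ∣ G - c := by
    intro p P d c n hd hddv hP hn hc
    have h0 : P.coeff 0 = d * c := by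
      have := congrArg (fun q => Polynomial.coeff q 0) hP
      simp only [coeff_map, coeff_C_mul, eq_intCast, coeff_zero_eq_eval_zero p, hc] at this
      exact_mod_cast this
    obtain ⟨z, hz⟩ := hom_sub_dvd P n u v
    obtain ⟨e, he⟩ := hddv
    refine ⟨c * u ^ n + e * M0 * z, ?_, ?_, ?_⟩
    · rw [sub_eq_iff_eq_add] at hz
      rw [hz, h0, hv, he]; ring
    · have := cast_hom hP hn (v := v) hu0
      rw [sub_eq_iff_eq_add] at hz
      rw [hz, h0, hv, he] at this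
      rw [hv, he]
      push_cast at this ⊢
      refine mul_left_cancel₀ (show (d : ℚ) ≠ 0 by exact_mod_cast hd.ne') ?_
      linear_combination this
    · have h1 : M0 ∣ u ^ n - 1 := by
        have : u - 1 ∣ u ^ n - 1 ^ n := sub_dvd_pow_sub_pow u 1 n
        rw [one_pow] at this
        exact (Dvd.intro (dd * k) (by rw [hu, hv]; ring)).trans this
      obtain ⟨w, hw⟩ := h1
      exact ⟨c * w + e * z, by linear_combination c * hw⟩
  obtain ⟨G4, hG4, eG4, kG4⟩ := key (F4 c4 c6) P4 d4 W.c₄ 20 hd4 ⟨d6 * dD, by rw [hdd]; ring⟩ hP4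
    (natDegree_F4_le _ _) (F4_eval_zero hne)
  obtain ⟨G6, hG6, eG6, kG6⟩ := key (F6 c4 c6) P6 d6 W.c₆ 30 hd6 ⟨d4 * dD, by rw [hdd]; ring⟩ hP6
    (natDegree_F6_le _ _) (F6_eval_zero hne)
  obtain ⟨GD, hGD, eGD, kGD⟩ := key (FD c4 c6) PD dD 1 12 hdD ⟨d4 * d6, by rw [hdd]; ring⟩ hPD
    (natDegree_FD_le _ _) (by simpa using FD_eval_zero hne)
  have hdisc : G4 ^ 3 - G6 ^ 2 = 1728 * W.Δ * GD ^ 5 := by
    have e := congrArg (Polynomial.eval ((v : ℚ) / u)) (F_disc hne)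
    simp only [eval_sub, eval_pow, eval_mul, eval_C, hrel] at e
    have : ((G4 ^ 3 - G6 ^ 2 : ℤ) : ℚ) = ((1728 * W.Δ * GD ^ 5 : ℤ) : ℚ) := by
      push_cast
      rw [eG4, eG6, eGD]
      linear_combination ((u : ℚ) ^ 60) * e
    exact_mod_cast this
  -- the model
  obtain ⟨x, hx⟩ : (48 * 864 : ℤ) ∣ G4 - W.c₄ :=
    (Dvd.intro (5 * |W.Δ| * |N| * |L| * dd) (by rw [hM0]; ring)).trans kG4
  obtain ⟨y, hy⟩ : (864 : ℤ) ∣ G6 - W.c₆ :=
    (Dvd.intro (5 * 48 * |W.Δ| * |N| * |L| * dd) (by rw [hM0]; ring)).trans kG6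
  set W' : WeierstrassCurve ℤ :=
    ⟨W.a₁, W.a₂, W.a₃, W.a₄ - 864 * x, W.a₆ + (-72 * W.b₂ * x - y)⟩ with hW'
  have e4 : W'.c₄ = G4 := by
    simp only [hW', WeierstrassCurve.c₄, WeierstrassCurve.b₂, WeierstrassCurve.b₄] at hx ⊢
    linear_combination -hx
  have e6 : W'.c₆ = G6 := by
    simp only [hW', WeierstrassCurve.c₆, WeierstrassCurve.b₂, WeierstrassCurve.b₄,
      WeierstrassCurve.b₆] at hy ⊢
    linear_combination -hy
  have eΔ : W'.Δ = W.Δ * GD ^ 5 := by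
    have := W'.c_relation
    rw [e4, e6, hdisc] at this
    linarith
  have hGDne : ∀ q : ℤ, Prime q → q ∣ M0 → ¬q ∣ GD := fun q hq hqM hqG =>
    hq.not_dvd_one (by
      have := dvd_sub hqG (hqM.trans kGD)
      simpa using this)
  have hGD0 : GD ≠ 0 := by
    intro e
    exact hGDne 2 Int.prime_two (Dvd.intro (5 * 20736 * |W.Δ| * |N| * |L| * dd) (by rw [hM0]; ring))
      (by rw [e]; exact dvd_zero 2)
  refine ⟨W', ?_, ?_, fun h5 h5' => ?_, ?_, ?_⟩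
  · rw [eΔ]; exact mul_ne_zero hΔ (pow_ne_zero 5 hGD0)
  · intro q hq hqΔ hqc
    rw [eΔ] at hqΔ
    rw [e4] at hqc
    have hqp : Prime (q : ℤ) := Nat.prime_iff_prime_int.1 hq
    by_cases hqM : (q : ℤ) ∣ M0
    · have hqW : (q : ℤ) ∣ W.Δ :=
        (hqp.dvd_or_dvd hqΔ).resolve_right fun h => hGDne q hqp hqM (hqp.dvd_of_dvd_pow h)
      refine hW q hq hqW ?_
      have := dvd_sub hqc (hqM.trans kG4)
      simpa using this
    · have hqW : ¬(q : ℤ) ∣ W.Δ := fun h =>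
        hqM (((dvd_abs _ _).2 h).trans (Dvd.intro (5 * 41472 * |N| * |L| * dd) (by rw [hM0]; ring)))
      have hqd : ¬(q : ℤ) ∣ dd := fun h =>
        hqM (h.trans (Dvd.intro_left (5 * 41472 * |W.Δ| * |N| * |L|) (by rw [hM0])))
      have hqN : ¬(q : ℤ) ∣ N := fun h =>
        hqM (((dvd_abs _ _).2 h).trans (Dvd.intro (5 * 41472 * |W.Δ| * |L| * dd) (by rw [hM0]; ring)))
      have hqL : ¬(q : ℤ) ∣ L := fun h =>
        hqM (((dvd_abs _ _).2 h).trans (Dvd.intro (5 * 41472 * |W.Δ| * |N| * dd) (by rw [hM0]; ring)))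
      have hqv : ¬(q : ℤ) ∣ v := fun h => (hqp.dvd_or_dvd h).elim hqd hqM
      have hqD : (q : ℤ) ∣ GD := hqp.dvd_of_dvd_pow ((hqp.dvd_or_dvd hqΔ).resolve_left hqW)
      have hh4 : (q : ℤ) ∣ hom P4 20 u v := hG4 ▸ hqc.mul_left d4
      have hhD : (q : ℤ) ∣ hom PD 12 u v := hGD ▸ hqD.mul_left dD
      by_cases hqu : (q : ℤ) ∣ u
      · exact hqL (hL _ (hom_top_dvd hqp hqu hqv hh4) (hom_top_dvd hqp hqu hqv hhD))
      · have := Fact.mk hq
        have hu' : (u : ZMod q) ≠ 0 := fun h => hqu ((ZMod.intCast_zmod_eq_zero_iff_dvd _ _).1 h)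
        have deg : ∀ {P : ℤ[X]} {p : ℚ[X]} {d : ℤ} {n : ℕ},
            P.map (Int.castRingHom ℚ) = C (d : ℚ) * p → p.natDegree ≤ n → P.natDegree ≤ n := by
          intro P p d n hP hn
          rw [← natDegree_map_eq_of_injective (f := Int.castRingHom ℚ) Int.cast_injective P, hP]
          exact (natDegree_C_mul_le _ _).trans hn
        have z4 := eval_mod (deg hP4 (natDegree_F4_le _ _)) hu' hh4
        have zD := eval_mod (deg hPD (natDegree_FD_le _ _)) hu' hhD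
        have := congrArg
          (fun r => (Polynomial.map (Int.castRingHom (ZMod q)) r).eval ((v : ZMod q) / u)) hbezZ
        simp only [Polynomial.map_add, Polynomial.map_mul, Polynomial.map_C, eval_add, eval_mul,
          eval_C, z4, zD, mul_zero, add_zero] at this
        exact hqN ((ZMod.intCast_zmod_eq_zero_iff_dvd _ _).1 (by simpa using this.symm))
  · have hp5 : Prime (5 : ℤ) := Nat.prime_iff_prime_int.1 Nat.prime_five
    rw [eΔ] at h5'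
    refine h5 ((hp5.dvd_or_dvd h5').resolve_right fun h => hGDne 5 hp5 ?_ (hp5.dvd_of_dvd_pow h))
    exact Dvd.intro (41472 * |W.Δ| * |N| * |L| * dd) (by rw [hM0]; ring)
  · rw [huQ, hcast, e4]; exact eG4
  · rw [huQ, hcast, e6]; exact eG6

open WeierstrassCurve in
/-- The switch at five. -/
theorem switchFive : SwitchFive := by
  intro W hΔ hW _
  set E := W.map (Int.castRingHom ℚ) with hE
  have hEΔ : E.Δ ≠ 0 := by simp [hE, hΔ]
  have hc4 : E.c₄ = (W.c₄ : ℚ) := by simp [hE]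
  have hc6 : E.c₆ = (W.c₆ : ℚ) := by simp [hE]
  have hne : (W.c₄ : ℚ) ^ 3 ≠ (W.c₆ : ℚ) ^ 2 := by
    rw [← hc4, ← hc6, ← sub_ne_zero, ← E.c_relation]
    exact mul_ne_zero (by norm_num) hEΔ
  obtain ⟨v, hv, hmod⟩ := exists_models_five W hΔ hW
  obtain ⟨k, hk⟩ := exists_irreducible_parameter hne v hv
  obtain ⟨W', hΔ', hW', hfive, e4, e6⟩ := hmod k
  set u : ℚ := 1 + (v : ℚ) * k with hu
  have hu0 : u ≠ 0 := by positivity
  set t : ℚ := (v : ℚ) / u with ht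
  set E' := W'.map (Int.castRingHom ℚ) with hE'
  have hE'Δ : E'.Δ ≠ 0 := by simp [hE', hΔ']
  have hs : ((u ^ 5)⁻¹ : ℚ) ≠ 0 := inv_ne_zero (pow_ne_zero 5 hu0)
  have s4 : (u ^ 5)⁻¹ ^ 4 * E'.c₄ = (F4 (W.c₄ : ℚ) (W.c₆ : ℚ)).eval t := by
    rw [hE', WeierstrassCurve.map_c₄, eq_intCast, e4]; field_simp
  have s6 : (u ^ 5)⁻¹ ^ 6 * E'.c₆ = (F6 (W.c₄ : ℚ) (W.c₆ : ℚ)).eval t := by
    rw [hE', WeierstrassCurve.map_c₆, eq_intCast, e6]; field_simp
  refine ⟨W', hΔ', hW', ?_, hfive, ?_⟩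
  · refine irreducible_three E' hE'Δ _ hs s4 s6 fun x hx => ?_
    obtain ⟨z, hz⟩ := root_scaled_integral (u := u) e4.symm e6.symm hx
    exact hk x hx z hz
  · intro ℓ hℓ hg hg' h5
    have : Fact ℓ.Prime := ⟨hℓ⟩
    have : Fact (Nat.Prime 5) := ⟨Nat.prime_five⟩
    obtain ⟨e, he⟩ := exists_equivariant_iso E E' hEΔ hE'Δ t _ hs (by rw [hc4, hc6]; exact s4)
      (by rw [hc4, hc6]; exact s6)
    obtain ⟨A, hA⟩ := Frobenius.exists_liesOverPrime (AlgebraicClosure ℚ) hℓ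
    obtain ⟨σ, hσ⟩ := Frobenius.exists_isFrobeniusAt_qbar hℓ hA
    have h1 := EllFrobenius.galoisTrace_eq_apOfModel W ℓ 5 h5 hg A σ hA hσ
    have h2 := EllFrobenius.galoisTrace_eq_apOfModel W' ℓ 5 h5 hg' A σ hA hσ
    rw [← hE] at h1
    rw [← hE', ← galoisTrace_eq E E' 5 e he σ, h1] at h2
    have := (ZMod.intCast_eq_intCast_iff_dvd_sub _ _ _).1 h2
    exact_mod_cast this

end Fermat.Agent.General
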