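import Fermat.Agent.Row42.Goals
import Fermat.Agent.General.Goals
import Fermat.Agent.EigenSystems.ModelIndependent
import Fermat.Agent.EigenSystems.FromForms
import Fermat.Agent.BigImage.Frey

/-!
# Residual modularity at three from a modular partner
-/

open WeierstrassCurve WeierstrassCurve.Affine

namespace Fermat.Agent.General

/-- A partner with congruent traces and a modular model gives residual modularity at its level. -/
theorem residuallyModular_of_congr {p : ℕ} [Fact p.Prime] {W W' : WeierstrassCurve ℤ}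
    (hΔ : W.Δ ≠ 0) (hΔ' : W'.Δ ≠ 0) {N : ℕ} (hN : 0 < N) (hmod : W'.IsModularModelOfLevel N)
    (hcongr : Row42.Congr p W W') : W.IsResiduallyModularOfLevel p N := by
  classical
  have hp : p.Prime := Fact.out
  have : NeZero N := ⟨hN.ne'⟩
  obtain ⟨f, hf, hcoef⟩ := hmod
  obtain ⟨𝔪, h𝔪, hp𝔪⟩ := FLTPrelim.exists_maximalIdeal_natCast_prime_mem hp
  refine ⟨f, 𝔪, hf, h𝔪, hp𝔪, ?_⟩
  have : (W.map (Int.castRingHom ℚ)).IsElliptic :=
    ⟨by simp [hΔ]⟩
  have hmodel : W.IsIntegralModelOf (W.map (Int.castRingHom ℚ)) := ⟨1, one_smul _ _⟩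
  refine EigenSystems.congr_everywhere hmodel hmodel hf hp𝔪
    (insert p (W.Δ.natAbs.primeFactors ∪ W'.Δ.natAbs.primeFactors ∪ N.primeFactors))
    fun ℓ hℓ hℓS => ?_
  simp only [Finset.mem_insert, Finset.mem_union, Nat.mem_primeFactors, hℓ, true_and, ne_eq,
    Int.natAbs_eq_zero, hΔ, hΔ', hN.ne', not_false_eq_true, and_true, not_or] at hℓS
  obtain ⟨h5, ⟨hP, hW⟩, hℓN⟩ := hℓS
  have hgP : W.IsGoodPrimeFor ℓ := fun h => hP (Int.natCast_dvd.mp h)
  have hgW : W'.IsGoodPrimeFor ℓ := fun h => hW (Int.natCast_dvd.mp h)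
  refine ⟨⟨ModularFormClass.qCoeff f ℓ, EigenSystems.isIntegral_qCoeff hf ℓ⟩, rfl, ?_⟩
  obtain ⟨c, hc⟩ := hcongr ℓ hℓ h5 hgP hgW
  have e : (⟨ModularFormClass.qCoeff f ℓ, EigenSystems.isIntegral_qCoeff hf ℓ⟩ :
      integralClosure ℤ ℂ) = ((W'.apOfModel ℓ : ℤ) : integralClosure ℤ ℂ) :=
    Subtype.ext (by simpa using hcoef ℓ hℓ hgW hℓN)
  rw [e, ← Int.cast_sub, hc, Int.cast_mul]
  exact 𝔪.mul_mem_right _ (by exact_mod_cast hp𝔪)

/-- `Residual3` from a modular partner. -/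
theorem residual3_of (hP : Row42.ModularPartner) : Residual3 := by
  intro W hΔ hW _
  have : Fact (Nat.Prime 3) := ⟨Nat.prime_three⟩
  obtain ⟨W', N, hΔ', hN, hsq, hsupp, hmod, hcongr, hgood⟩ := hP W hΔ hW
  exact ⟨N, hN, hsq, fun h3 hd => hgood h3 (hsupp 3 Nat.prime_three hd),
    residuallyModular_of_congr hΔ hΔ' hN hmod hcongr⟩

end Fermat.Agent.General
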