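import Fermat.Agent.General.Assembly
import Fermat.Agent.General.LiftingTop
import Fermat.Agent.General.Lower.Main
import Fermat.Agent.General.Lower.Ramified
import Fermat.Agent.General.Ord.Lifting
import Fermat.Agent.General.SS.Case
import Fermat.Agent.General.SwitchFive
import Fermat.Agent.General.Top.CaseMult
import Fermat.Agent.Row42.Partner

/-!
# Modularity of all semistable models

Residual modularity at `3` comes from a modular partner, at `5` from the switch; lifting at `3` and
at `5` is assembled from the auxiliary primes, lowering to the ramified primes and the three cases
of the behaviour at `p` (multiplicative, good ordinary, supersingular).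
-/

namespace Fermat.Agent.General

/-- Lifting at `3`. -/
theorem lifting_three : Lifting 3 := by
  have : Fact (Nat.Prime 3) := ⟨Nat.prime_three⟩
  exact lifting_of 3 auxExists_three (ramifiedLevel_of lowering_three) (liftingMult (by norm_num))
    (liftingOrd 3 (by norm_num)) (liftingSS (by norm_num))

/-- Lifting at `5`. -/
theorem lifting_five : Lifting 5 := by
  have : Fact (Nat.Prime 5) := ⟨Nat.prime_five⟩
  exact lifting_of 5 auxExists_five (ramifiedLevel_of lowering_five) (liftingMult (by norm_num))
    (liftingOrd 5 (by norm_num)) (liftingSS (by norm_num))

/-- All semistable models are modular. -/
theorem allModular : AllModular :=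
  allModular_of Row42.residual3 switchFive lifting_three lifting_five

end Fermat.Agent.General
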