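import Fermat.Agent.General.Goals
import Fermat.Agent.General.ExactConductor
import Fermat.Agent.General.Residual3
import Fermat.Agent.S51
import Fermat.Statements.S60

/-!
# Modularity of all semistable models from residual modularity at three, the switch and lifting
-/

open WeierstrassCurve

namespace Fermat.Agent.General

/-- The residual level at `5` given by the switch. -/
theorem residual_five_of (hR : Residual3) (hS : SwitchFive) (hL : Lifting 3)
    (W : WeierstrassCurve ℤ) (hΔ : W.Δ ≠ 0) (hW : W.IsSemistableModel)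
    (h5 : W.ModRepIsIrreducible 5) : ∃ M, GoodResidualLevel W 5 M := by
  have : Fact (Nat.Prime 5) := ⟨Nat.prime_five⟩
  obtain ⟨W', hΔ', hW', h3, hgood, hcongr⟩ := hS W hΔ hW h5
  obtain ⟨N, hN, hsq, hsupp, hmod⟩ := hL W' hΔ' hW' h3 (hR W' hΔ' hW' h3)
  exact ⟨N, hN, hsq, fun hg h => hgood hg (hsupp 5 Nat.prime_five h),
    residuallyModular_of_congr hΔ hΔ' hN hmod fun ℓ hℓ hℓ5 h h' => hcongr ℓ hℓ h h' hℓ5⟩

/-- Every semistable model is modular at its exact level. -/
theorem allModular_of (hR : Residual3) (hS : SwitchFive) (hL3 : Lifting 3) (hL5 : Lifting 5) :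
    AllModular := by
  intro W hΔ hW
  rcases S51.result W hΔ hW with h3 | h5
  · have : Fact (Nat.Prime 3) := ⟨by norm_num⟩
    obtain ⟨N, -, hsq, -, hN⟩ := hL3 W hΔ hW h3 (hR W hΔ hW h3)
    exact exactConductor_of_squarefree hΔ hW h3 hsq hN
  · have : Fact (Nat.Prime 5) := ⟨by norm_num⟩
    obtain ⟨N, -, hsq, -, hN⟩ := hL5 W hΔ hW h5 (residual_five_of hR hS hL3 W hΔ hW h5)
    exact exactConductor_of_squarefree hΔ hW h5 hsq hN

/-- Statement S60 from modularity of all semistable models. -/
theorem isModular_of (h : AllModular) (W : WeierstrassCurve ℤ) (hΔ : W.Δ ≠ 0)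
    (hW : W.IsSemistableModel) : (W.map (Int.castRingHom ℚ)).IsModular := by
  obtain ⟨N, hN, -, -, hmod⟩ := h W hΔ hW
  exact ⟨W, ⟨1, one_smul _ _⟩, N, hN, hmod⟩

end Fermat.Agent.General
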