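import Fermat.Agent.General.Goals
import Fermat.Agent.Engine.Top.Setup

/-!
# The interface of lifting at an odd prime by cases

`AuxSet`: primes `R ≡ -1 (mod p)` of good reduction with `p ∤ a_R`, which stay in every level; one
is needed at `p = 3`.  `RamifiedLevel`: lowering to ramified primes.  The three cases conclude
modularity of some squarefree level; the exact conductor gives the support.
-/

namespace Fermat.Agent.General

open Engine Engine.Top

/-- The auxiliary primes. -/
structure AuxSet (W : WeierstrassCurve ℤ) (p : ℕ) (U : Finset ℕ) : Prop where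
  prime : ∀ R ∈ U, R.Prime
  good : ∀ R ∈ U, W.IsGoodPrimeFor R
  neg_one : ∀ R ∈ U, p ∣ R + 1
  trace : ∀ R ∈ U, ¬ (p : ℤ) ∣ W.apOfModel R
  three : p = 3 → U.Nonempty

/-- A base level for lifting: ramified primes, auxiliary primes and possibly `p`. -/
structure LiftingBase (W : WeierstrassCurve ℤ) (p : ℕ) [Fact p.Prime] (U : Finset ℕ) (M : ℕ) :
    Prop where
  aux : AuxSet W p U
  level : GoodResidualLevel W p M
  dvd : ∀ R ∈ U, R ∣ M
  support : ∀ q : ℕ, q.Prime → q ∣ M → q ∈ Smin W p ∪ U ∪ {p}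

/-- Lowering to the ramified primes, keeping the auxiliary primes. -/
def RamifiedLevel (p : ℕ) [Fact p.Prime] : Prop :=
  ∀ (W : WeierstrassCurve ℤ) (U : Finset ℕ) (M : ℕ), W.Δ ≠ 0 → W.IsSemistableModel →
    W.ModRepIsIrreducible p → AuxSet W p U → GoodResidualLevel W p M → (∀ R ∈ U, R ∣ M) →
    ∃ M₀, M₀ ∣ M ∧ LiftingBase W p U M₀

/-- Auxiliary primes avoiding a finite set exist. -/
def AuxExists (p : ℕ) : Prop :=
  ∀ (W : WeierstrassCurve ℤ) (S : Finset ℕ), W.Δ ≠ 0 → W.IsSemistableModel →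
    W.ModRepIsIrreducible p → ∃ U : Finset ℕ, AuxSet W p U ∧ ∀ R ∈ U, R ∉ S

/-- Lifting from a base level in one case of the behaviour at `p`. -/
def LiftingCase (p : ℕ) [Fact p.Prime] (P : WeierstrassCurve ℤ → Prop) : Prop :=
  ∀ (W : WeierstrassCurve ℤ) (U : Finset ℕ) (M : ℕ), W.Δ ≠ 0 → W.IsSemistableModel →
    W.ModRepIsIrreducible p → P W → LiftingBase W p U M →
    ∃ N : ℕ, Squarefree N ∧ W.IsModularModelOfLevel N

/-- Case M: multiplicative at `p`; lowering is used at the raised levels. -/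
def LiftingMult (p : ℕ) [Fact p.Prime] : Prop :=
  RamifiedLevel p → LiftingCase p fun W => ¬ W.IsGoodPrimeFor p

/-- Case O: good ordinary at `p`, any unit root. -/
def LiftingOrd (p : ℕ) [Fact p.Prime] : Prop :=
  LiftingCase p fun W => W.IsGoodPrimeFor p ∧ ¬ (p : ℤ) ∣ W.apOfModel p

/-- Case S: good supersingular at `p`. -/
def LiftingSS (p : ℕ) [Fact p.Prime] : Prop :=
  LiftingCase p fun W => W.IsGoodPrimeFor p ∧ (p : ℤ) ∣ W.apOfModel p

end Fermat.Agent.General
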