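import Fermat.Agent.General.IndexTwoGroup
import Fermat.Agent.Row38.IndexTwo
import Fermat.Agent.RowS56.Vanishing.Image

/-!
# Irreducibility on index two subgroups for a semistable curve, `p` odd

At `p = 3`: if `3` divides the order of the image there is a transvection; otherwise inertia away
from `3` acts trivially and, unless the curve is supersingular at `3`, inertia at `3` acts through
one involution, whose conjugates generate the image; the image is then cyclic, hence reducible.
-/

open WeierstrassCurve WeierstrassCurve.Affine Fermat.Agent.BigImage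
open scoped WeierstrassCurve.Affine TensorProduct

noncomputable section

namespace Fermat.Agent.General

local notation "Ω" => AlgebraicClosure ℚ
local notation "G_ℚ" => (AlgebraicClosure ℚ) ≃ₐ[ℚ] (AlgebraicClosure ℚ)

attribute [local instance] EllLocal.instDecEqKA

local instance isAlgebraicQbar_gen : Algebra.IsAlgebraic ℚ (AlgebraicClosure ℚ) :=
  AlgebraicClosure.isAlgebraic ℚ
local instance normalQbar_gen : Normal ℚ (AlgebraicClosure ℚ) :=
  have : IsAlgClosure ℚ (AlgebraicClosure ℚ) := ⟨inferInstance, inferInstance⟩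
  IsAlgClosure.normal ℚ (AlgebraicClosure ℚ)

/-- Elementary facts in `𝔽₃`. -/
theorem zmod_three_facts : (2 : ZMod 3) = -1 ∧ (2 * 2 : ZMod 3) = 1 ∧ (-1 * 2 : ZMod 3) = 1 ∧
    (∀ d : ZMod 3, d ≠ 0 → d = 1 ∨ d = -1) ∧ (2 : ZMod 3) ≠ 0 := by
  decide

variable {W : WeierstrassCurve ℤ} {p : ℕ} [hp : Fact p.Prime]

local notation "WE" => (WeierstrassCurve.map W (Int.castRingHom ℚ))
local notation "ρp" => Affine.Point.galoisRepModuleEnd (K := AlgebraicClosure ℚ) ℚ
  (W.map (Int.castRingHom ℚ)) p

variable [(W.map (Int.castRingHom ℚ)).IsElliptic]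

omit hp in
/-- Semistable, `W[3]` irreducible, inertia at `3` with eigenvalue `1`: `3` divides the order of
the image. -/
theorem three_dvd_card_image [Fact (Nat.Prime 3)] (hΔ0 : W.Δ ≠ 0) (hss : W.IsSemistableModel)
    (hirr : Affine.Point.GaloisRepIsIrreducible (K := Ω) ℚ WE 3)
    (hshape : ∀ A : ValuationSubring Ω, A.LiesOverPrime 3 → ∀ σ ∈ A.inertiaSubgroupIn ℚ,
      LinearMap.det (Affine.Point.galoisRepModuleEnd (K := Ω) ℚ WE 3 σ - 1) = 0)
    (hcard : Nat.card (Submodule.torsionBy ℤ (WE⁄Ω).Point (3 : ℕ)) = 3 ^ 2)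
    (hker : GaloisFactorsThroughFiniteLevel
      (Affine.Point.galoisRepModuleEnd (K := Ω) ℚ WE 3)) :
    3 ∣ Nat.card ((WE).residualGaloisRepOf 3 hcard hker).ρ.toHomUnits.range := by
  classical
  by_contra h3
  set R := (WE).residualGaloisRepOf 3 hcard hker with hR
  obtain ⟨A, hA⟩ := Frobenius.exists_liesOverPrime Ω Nat.prime_three
  obtain ⟨τ, hτ, hτ2⟩ := exists_inertia_det_eq_two (W := W) (p := 3) (by norm_num) hA
  obtain ⟨h21, h22, hm12, hd3, h2⟩ := zmod_three_facts
  have htriv : ∀ σ ∈ A.inertiaSubgroupIn ℚ, LinearMap.det (R.ρ σ) = 1 → R.ρ σ = 1 :=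
    fun σ hσ hd => eq_one_of_unipotent h3
      (sub_one_mul_self_of_det_eq_one R.finrank_eq hd (hshape A hA σ hσ))
  have haway : ∀ q : ℕ, q.Prime → q ≠ 3 → ∀ B : ValuationSubring Ω, B.LiesOverPrime q →
      ∀ σ ∈ B.inertiaSubgroupIn ℚ, R.ρ σ = 1 := fun q hq hq3 B hB σ hσ => by
    have hq' : ¬ q ∣ 3 := fun h => hq3 ((Nat.prime_dvd_prime_iff_eq hq Nat.prime_three).1 h)
    by_cases hbad : (q : ℤ) ∣ W.Δ
    · refine eq_one_of_unipotent h3 (LinearMap.ext fun v => ?_)
      have h : R.ρ σ (R.ρ σ v - v) = R.ρ σ v - v :=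
        Subtype.ext (MultRed.inertia_unipotent hq hB hΔ0 hbad (hss q hq hbad) hσ hq'
          (by rw [← natCast_zsmul]; exact (Submodule.mem_torsionBy_iff _ _).1 v.2))
      rw [Module.End.mul_apply, LinearMap.sub_apply, Module.End.one_apply, LinearMap.sub_apply,
        Module.End.one_apply, h, sub_self, LinearMap.zero_apply]
    · exact LinearMap.ext fun v => Subtype.ext (MultRed.inertia_smul_eq_of_good hq hB hbad hσ
        hq' (by rw [← natCast_zsmul]; exact (Submodule.mem_torsionBy_iff _ _).1 v.2))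
  -- the image is the normal closure of the image of `τ`
  let u := R.ρ.toHomUnits.rangeRestrict
  have hfin : Finite R.ρ.toHomUnits.range := by
    have : Finite R.V := Module.finite_of_finite (ZMod 3)
    have : Finite (Module.End (ZMod 3) R.V) := Module.finite_of_finite (ZMod 3)
    infer_instance
  let N := (Subgroup.normalClosure {u τ}).comap u
  have hkerN : ∀ σ, R.ρ σ = 1 → σ ∈ N := fun σ h => by
    have h' : u σ = 1 := Subtype.ext (Units.ext h)
    show u σ ∈ Subgroup.normalClosure {u τ}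
    rw [h']
    exact one_mem _
  have hsq : R.ρ (τ * τ) = 1 := htriv _ (mul_mem hτ hτ) (by
    rw [map_mul, map_mul]
    exact (congrArg₂ (· * ·) hτ2 hτ2).trans h22)
  have hunit : ∀ g, LinearMap.det (R.ρ g) = 1 ∨ LinearMap.det (R.ρ g) = -1 := fun g => by
    have hne : LinearMap.det (R.ρ g) ≠ 0 :=
      ((LinearMap.isUnit_iff_isUnit_det _).1 ((Group.isUnit g).map R.ρ)).ne_zero
    exact hd3 _ hne
  have htop : N = ⊤ := by
    refine FreyReducible.subgroup_eq_top_of_inertia_le N ?_ fun q hq => ?_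
    · obtain ⟨L, hL, hL'⟩ := hker
      exact ⟨L, hL, fun g hg => hkerN g (hL' g ((IntermediateField.mem_fixingSubgroup_iff L g).1 hg))⟩
    by_cases hq3 : q = 3
    · subst hq3
      refine ⟨A, hA, fun σ hσ => ?_⟩
      rcases hunit σ with hd | hd
      · exact hkerN σ (htriv σ hσ hd)
      · have h1 : σ * τ ∈ N := hkerN _ (htriv _ (mul_mem hσ hτ) (by
          rw [map_mul, map_mul, hd]
          exact (congrArg (-1 * ·) hτ2).trans hm12))
        have h2τ : τ ∈ N := Subgroup.subset_normalClosure (Set.mem_singleton _)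
        simpa using mul_mem h1 (inv_mem h2τ)
    · obtain ⟨B, hB⟩ := Frobenius.exists_liesOverPrime Ω hq
      exact ⟨B, hB, fun σ hσ => hkerN σ (haway q hq hq3 B hB σ hσ)⟩
  have hgen : Subgroup.normalClosure {u τ} = ⊤ :=
    Subgroup.comap_injective (MonoidHom.rangeRestrict_surjective _)
      (htop.trans (Subgroup.comap_top u).symm)
  have : Fact (Nat.Prime 2) := ⟨Nat.prime_two⟩
  have hcyc := zpowers_eq_top_of_normalClosure (isPGroup_two_range R.finrank_eq h3) hgen
  -- an eigenline of `τ` is stable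
  obtain ⟨b, hb0, -⟩ := exists_involution_basis R.finrank_eq h2 (f := R.ρ τ)
    (fun v => by rw [← Module.End.mul_apply, ← map_mul, hsq, Module.End.one_apply])
    (show LinearMap.det (R.ρ τ) = -1 from hτ2.trans h21)
  obtain ⟨σ, hσ⟩ := exists_not_mem_span (residual_isIrreducible (hcard := hcard) (hker := hker) hirr)
    b 0
  refine hσ ?_
  obtain ⟨n, hn⟩ : ∃ n : ℤ, u τ ^ n = u σ :=
    Subgroup.mem_zpowers_iff.1 (hcyc ▸ Subgroup.mem_top _)
  have hsq' : u τ ^ (2 : ℤ) = 1 := by
    rw [show (2 : ℤ) = ((2 : ℕ) : ℤ) from rfl, zpow_natCast, sq, ← map_mul]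
    exact Subtype.ext (Units.ext hsq)
  obtain ⟨m, rfl | rfl⟩ := Int.even_or_odd' n
  · rw [zpow_mul, hsq', one_zpow] at hn
    have he : R.ρ σ = 1 := (congrArg (fun x => Units.val (Subtype.val x)) hn).symm
    rw [he, Module.End.one_apply]
    exact Submodule.mem_span_singleton_self _
  · rw [zpow_add, zpow_mul, hsq', one_zpow, zpow_one, one_mul] at hn
    have he : R.ρ σ = R.ρ τ := (congrArg (fun x => Units.val (Subtype.val x)) hn).symm
    rw [he, hb0, one_smul]
    exact Submodule.mem_span_singleton_self _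

omit [(W.map (Int.castRingHom ℚ)).IsElliptic] in
/-- **Semistable, `p` odd, `W[p]` irreducible: absolutely irreducible on every index two
subgroup.** -/
theorem indexTwoIrreducible_of_semistable (hΔ0 : W.Δ ≠ 0) (hss : W.IsSemistableModel)
    (hp2 : p ≠ 2) (hirr : W.ModRepIsIrreducible p) : Engine.IndexTwoIrreducible W p := by
  intro hcard hker K _ _ G hG V hV
  have := isElliptic_of_Δ_ne_zero hΔ0
  by_cases hp5 : 5 ≤ p
  · exact (Row38.residual_of_semistable hΔ0 hss hp5 hirr).indexTwo hcard hker K G hG V hV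
  have hp3 : p = 3 := by
    have h := hp.out.two_le
    have h4 : p ≠ 4 := fun h => absurd (h ▸ hp.out) (by norm_num)
    omega
  by_cases hsup : EllLocal.IsGoodSupersingular W p
  · exact Row38.supersingular_index_two_irreducible hΔ0 hss hp2 hirr hsup K G hG V hV
  subst hp3
  have hshape : ∀ A : ValuationSubring Ω, A.LiesOverPrime 3 → ∀ σ ∈ A.inertiaSubgroupIn ℚ,
      LinearMap.det (Affine.Point.galoisRepModuleEnd (K := Ω) ℚ WE 3 σ - 1) = 0 :=
    fun A hA σ hσ => by
      by_cases hgood : W.IsGoodPrimeFor 3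
      · refine det_inertia_sub_one_of_ordinary hgood hA
          ((EllLocal.ordinaryRedAt_iff hA hgood).2 ?_) hσ
        exact by_contra fun h => hsup ⟨hgood, h⟩
      · exact det_inertia_sub_one_of_mult hΔ0 (not_not.1 hgood)
          (hss 3 Fact.out (not_not.1 hgood)) hA hσ
  obtain ⟨σ, hsq, hne⟩ := exists_transvection_of_dvd_card
    ((WE).residualGaloisRepOf 3 hcard hker).finrank_eq
    (three_dvd_card_image hΔ0 hss hirr hshape hcard hker)
  exact irreducible_index_two_of_transvection (ρ := ((WE).residualGaloisRepOf 3 hcard hker))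
    (residual_isIrreducible hirr) (two_ne_zero_zmod hp2) hsq hne K G hG V hV

end Fermat.Agent.General

namespace Fermat.Agent.General

open Fermat.Agent.DefRing Fermat.Agent.GalCoh Fermat.Agent.Engine Fermat.Agent.Engine.TW

/-- The vanishing of `H¹(image, ad⁰(1))` for every odd `p` and every finite coefficient field. -/
theorem h1Vanishing_of_indexTwoIrreducible {k : Type} [Field k] [Finite k] {p : ℕ} [Fact p.Prime]
    [CharP k p] [Algebra (ZMod p) k] {ρ : MRep k} (hp2 : p ≠ 2)
    (hfin : GaloisFactorsThroughFiniteLevel (ρ : GQ →* _)) (habs : TW.IndexTwoIrreducible ρ)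
    {χ : GQ → k} (hχ : IsCyclotomicModP p χ) (hdet : ∀ σ, (ρ σ).det = χ σ) :
    H1Vanishing p ρ := fun _ hy hker =>
  RowS56.mem_B1_of_kills_rhoKer hχ hdet hfin habs hp2 hy hker

end Fermat.Agent.General
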