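import Fermat.Agent.BigImage.Frey
import Mathlib.GroupTheory.Nilpotent
import Mathlib.GroupTheory.PGroup
import Mathlib.LinearAlgebra.Eigenspace.Zero
import Mathlib.LinearAlgebra.Matrix.GeneralLinearGroup.Card

/-!
# Plane representations over `𝔽_p` with small image

* an element of order `p` in the image gives a transvection;
* if `p = 3` does not divide the order of the image and the image is the normal closure of one
  element, then the image is cyclic.
-/

noncomputable section

namespace Fermat.Agent.General

universe uV uG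

/-- A finite `p`-group which is the normal closure of one element is generated by it. -/
theorem zpowers_eq_top_of_normalClosure {G : Type uG} [Group G] [Finite G] {p : ℕ} [Fact p.Prime]
    (hG : IsPGroup p G) {g : G} (hg : Subgroup.normalClosure {g} = ⊤) :
    Subgroup.zpowers g = ⊤ := by
  rcases eq_top_or_exists_le_coatom (Subgroup.zpowers g) with h | ⟨M, hM, hle⟩
  · exact h
  have := hG.isNilpotent
  have hn := Subgroup.NormalizerCondition.normal_of_coatom M Group.normalizerCondition_of_isNilpotent hM
  exact absurd (top_le_iff.1 (hg ▸ Subgroup.normalClosure_le_normal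
    (Set.singleton_subset_iff.2 (hle (Subgroup.mem_zpowers g))))) hM.1

variable {p : ℕ} [Fact p.Prime] {V : Type uV} [AddCommGroup V] [Module (ZMod p) V]
  [Module.Finite (ZMod p) V]

/-- An endomorphism of a plane with square zero after subtracting `1`, if it has determinant one
and an eigenvalue one. -/
theorem sub_one_mul_self_of_det_eq_one (hdim : Module.finrank (ZMod p) V = 2)
    {f : Module.End (ZMod p) V} (hdet : LinearMap.det f = 1)
    (h1 : LinearMap.det (f - 1) = 0) : (f - 1) * (f - 1) = 0 := by
  let b : Module.Basis (Fin 2) (ZMod p) V :=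
    (Module.finBasis (ZMod p) V).reindex (finCongr hdim)
  refine (LinearMap.toMatrix b b).injective ?_
  rw [LinearMap.toMatrix_mul, map_sub, LinearMap.toMatrix_one, map_zero]
  rw [← LinearMap.det_toMatrix b, Matrix.det_fin_two] at hdet h1
  rw [map_sub, LinearMap.toMatrix_one] at h1
  simp [Matrix.sub_apply] at h1
  ext i j
  fin_cases i <;> fin_cases j <;> simp [Matrix.mul_apply, Fin.sum_univ_two]
  · linear_combination (LinearMap.toMatrix b b f 0 0 - 1) * (hdet - h1) - h1
  · linear_combination (LinearMap.toMatrix b b f 0 1) * (hdet - h1)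
  · linear_combination (LinearMap.toMatrix b b f 1 0) * (hdet - h1)
  · linear_combination (LinearMap.toMatrix b b f 1 1 - 1) * (hdet - h1) - h1

variable {G : Type uG} [Group G] {ρ : G →* Module.End (ZMod p) V}

/-- An element of order `p` in the image is a transvection. -/
theorem exists_transvection_of_dvd_card (hdim : Module.finrank (ZMod p) V = 2)
    (h : p ∣ Nat.card ρ.toHomUnits.range) :
    ∃ σ, (∀ v, ρ σ (ρ σ v - v) = ρ σ v - v) ∧ ρ σ ≠ 1 := by
  have : Finite V := Module.finite_of_finite (ZMod p)
  have : Finite (Module.End (ZMod p) V) := Module.finite_of_finite (ZMod p)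
  have : Nontrivial V := Module.nontrivial_of_finrank_pos (R := ZMod p) (by omega)
  have : CharP (Module.End (ZMod p) V) p :=
    charP_of_injective_algebraMap (algebraMap (ZMod p) (Module.End (ZMod p) V)).injective p
  obtain ⟨⟨u, σ, rfl⟩, hu⟩ := exists_prime_orderOf_dvd_card' p h
  rw [← Subgroup.orderOf_coe] at hu
  have hpow : ρ σ ^ p = 1 := by
    rw [← MonoidHom.coe_toHomUnits ρ σ, ← Units.val_pow_eq_pow_val,
      orderOf_dvd_iff_pow_eq_one.1 (dvd_of_eq hu), Units.val_one]
  refine ⟨σ, ?_, fun h1 => ?_⟩
  · have hnil : IsNilpotent (ρ σ - 1) := ⟨p, by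
      rw [sub_pow_char_of_commute (p := p) (h := Commute.one_right (ρ σ)), one_pow, hpow, sub_self]⟩
    have h0 : (ρ σ - 1) ^ 2 = 0 := by
      have := LinearMap.aeval_self_charpoly (ρ σ - 1)
      rwa [IsNilpotent.charpoly_eq_X_pow_finrank hnil, hdim, Polynomial.aeval_X_pow] at this
    intro v
    have hv := LinearMap.congr_fun h0 v
    rw [sq, Module.End.mul_apply, LinearMap.sub_apply, Module.End.one_apply, LinearMap.sub_apply,
      Module.End.one_apply, LinearMap.zero_apply, sub_eq_zero] at hv
    exact hv
  · have h' : ρ.toHomUnits σ = 1 := Units.ext h1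
    replace hu : orderOf (ρ.toHomUnits σ) = p := hu
    rw [h', orderOf_one] at hu
    exact (Fact.out : p.Prime).ne_one hu.symm

omit [Module.Finite (ZMod p) V] in
/-- In an image of order prime to `p` a unipotent element is trivial. -/
theorem eq_one_of_unipotent (h : ¬ p ∣ Nat.card ρ.toHomUnits.range) {σ : G}
    (hσ : (ρ σ - 1) * (ρ σ - 1) = 0) : ρ σ = 1 := by
  rcases subsingleton_or_nontrivial (Module.End (ZMod p) V) with hsub | hnt
  · exact Subsingleton.elim _ _
  have : CharP (Module.End (ZMod p) V) p :=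
    charP_of_injective_algebraMap (algebraMap (ZMod p) (Module.End (ZMod p) V)).injective p
  have hp : p.Prime := Fact.out
  have hpow : ρ σ ^ p = 1 := by
    refine sub_eq_zero.1 ?_
    have h2 : (ρ σ - 1) ^ p = 0 := pow_eq_zero_of_le hp.two_le (by rw [sq]; exact hσ)
    rwa [sub_pow_char_of_commute (p := p) (h := Commute.one_right (ρ σ)), one_pow] at h2
  have hu : ρ.toHomUnits σ ^ p = 1 := Units.ext (by
    rw [Units.val_pow_eq_pow_val, MonoidHom.coe_toHomUnits, hpow, Units.val_one])
  have h1 : orderOf (⟨ρ.toHomUnits σ, σ, rfl⟩ : ρ.toHomUnits.range) = 1 := by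
    rcases (Nat.dvd_prime hp).1 (orderOf_dvd_of_pow_eq_one (x :=
      (⟨ρ.toHomUnits σ, σ, rfl⟩ : ρ.toHomUnits.range)) (Subtype.ext hu)) with h' | h'
    · exact h'
    · refine absurd ?_ h
      have h3 := orderOf_dvd_natCard (⟨ρ.toHomUnits σ, σ, rfl⟩ : ρ.toHomUnits.range)
      rwa [h'] at h3
  exact congrArg Units.val (congrArg Subtype.val (orderOf_eq_one_iff.1 h1))

omit [Module.Finite (ZMod p) V] in
/-- A subgroup of `GL₂(𝔽₃)` of order prime to `3` is a two group. -/
theorem isPGroup_two_range {V : Type uV} [AddCommGroup V] [Module (ZMod 3) V]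
    (hdim : Module.finrank (ZMod 3) V = 2) {ρ : G →* Module.End (ZMod 3) V}
    (h : ¬ 3 ∣ Nat.card ρ.toHomUnits.range) : IsPGroup 2 ρ.toHomUnits.range := by
  have : Fact (Nat.Prime 3) := ⟨Nat.prime_three⟩
  have : Module.Finite (ZMod 3) V := Module.finite_of_finrank_eq_succ hdim
  let b : Module.Basis (Fin 2) (ZMod 3) V :=
    (Module.finBasis (ZMod 3) V).reindex (finCongr hdim)
  have hcard : Nat.card (Module.End (ZMod 3) V)ˣ = 48 := by
    rw [Nat.card_congr (Units.mapEquiv (LinearMap.toMatrixAlgEquiv b).toMulEquiv).toEquiv]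
    show Nat.card (Matrix.GeneralLinearGroup (Fin 2) (ZMod 3)) = 48
    rw [Matrix.card_GL_field, Fin.prod_univ_two, ZMod.card]
    rfl
  have h48 : Nat.card ρ.toHomUnits.range ∣ 3 * 2 ^ 4 := by
    rw [show 3 * 2 ^ 4 = 48 by norm_num, ← hcard]
    exact Subgroup.card_subgroup_dvd_card _
  obtain ⟨n, -, hn⟩ := (Nat.dvd_prime_pow Nat.prime_two).1
    (((Nat.prime_three.coprime_iff_not_dvd).2 h).symm.dvd_of_dvd_mul_left h48)
  exact IsPGroup.of_card hn

end Fermat.Agent.General
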