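import Fermat.Agent.General.Main
import Fermat.Agent.S40

/-!
# Lifting from a given residual level

`lifting_three` and `lifting_five` start from a squarefree level prime to a good `p`.  A squarefree
level gives one: `p` leaves it by S40.  At a level divisible by a square the residual level comes
instead from the modular partner at `3` or the switch at `5`: lowering such a square residually is
not formalised.
-/

open WeierstrassCurve

namespace Fermat.Agent.General

/-- A squarefree residual level gives a good residual level. -/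
theorem residualLevel_of_squarefree {p : ℕ} [Fact p.Prime] (hp2 : p ≠ 2) {W : WeierstrassCurve ℤ}
    (hΔ : W.Δ ≠ 0) (hirr : W.ModRepIsIrreducible p) {M : ℕ} (hsq : Squarefree M)
    (hres : W.IsResiduallyModularOfLevel p M) : ∃ M', GoodResidualLevel W p M' := by
  have hp : p.Prime := Fact.out
  have h0 : 0 < M := Nat.pos_of_ne_zero hsq.ne_zero
  by_cases h : W.IsGoodPrimeFor p ∧ p ∣ M
  · refine ⟨M / p, Nat.div_pos (Nat.le_of_dvd h0 h.2) hp.pos,
      hsq.squarefree_of_dvd (Nat.div_dvd_of_dvd h.2),
      fun _ hd => hp.not_isUnit (hsq p (Nat.mul_dvd_of_dvd_div h.2 hd)), ?_⟩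
    exact S40.result W hΔ hp hp2 h.1 hirr h0 h.2
      (fun h2 => hp.not_isUnit (hsq p (by rwa [← sq]))) hres
  · exact ⟨M, h0, hsq, fun hg hd => h ⟨hg, hd⟩, hres⟩

/-- A good residual level at `p ∈ {3, 5}`, from the given level if that is squarefree. -/
theorem goodResidualLevel_threeFive {p : ℕ} (hp : p = 3 ∨ p = 5) {W : WeierstrassCurve ℤ}
    (hΔ : W.Δ ≠ 0) (hW : W.IsSemistableModel) (hirr : W.ModRepIsIrreducible p) {M : ℕ}
    (hres : W.IsResiduallyModularOfLevel p M) : ∃ M', GoodResidualLevel W p M' := by
  by_cases hsq : Squarefree M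
  · have : Fact p.Prime := ⟨by rcases hp with rfl | rfl <;> norm_num⟩
    exact residualLevel_of_squarefree (by omega) hΔ hirr hsq hres
  · rcases hp with rfl | rfl
    · exact Row42.residual3 W hΔ hW hirr
    · exact residual_five_of Row42.residual3 switchFive lifting_three W hΔ hW hirr

/-- Lifting at `p ∈ {3, 5}`. -/
theorem lifting_threeFive {p : ℕ} (hp : p = 3 ∨ p = 5) : Lifting p := by
  rcases hp with rfl | rfl
  exacts [lifting_three, lifting_five]

/-- Residual modularity at some level lifts to modularity at the exact conductor level. -/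
theorem exactConductor_of_residualLevel {p : ℕ} (hp : p = 3 ∨ p = 5) {W : WeierstrassCurve ℤ}
    (hΔ : W.Δ ≠ 0) (hW : W.IsSemistableModel) (hirr : W.ModRepIsIrreducible p) {M : ℕ}
    (hres : W.IsResiduallyModularOfLevel p M) :
    Mlc1IsModularModelOfExactConductorLevel W := by
  have : Fact p.Prime := ⟨by rcases hp with rfl | rfl <;> norm_num⟩
  obtain ⟨N, -, hsq, -, hN⟩ :=
    lifting_threeFive hp W hΔ hW hirr (goodResidualLevel_threeFive hp hΔ hW hirr hres)
  exact exactConductor_of_squarefree hΔ hW hirr hsq hN

end Fermat.Agent.General
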